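import Fermat.Agent.ES.H.Main
import Fermat.Agent.S28.Key

/-!
# T-ES, Part H, row H4: the Hauptmoduln `t₂`, `t₃` lie in the function fields `F_K(2)`, `F_K(3)`

Only the four formal relations of `Main.lean` are used, together with the lower bound
`[F_K(N) : K(j)] ≥ ψ(N)` of the S28 library (valid for every field `K` in which `N ≠ 0`).
-/

set_option autoImplicit false

open ModularCurve Polynomial

namespace Fermat.Agent.ESlib

open Fermat.Agent.S28lib

noncomputable section

/-- `ψ(N)` integral elements of `ℤ[j(q^d) : d ∣ N]` that stay independent over `K(j)`, for every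
field `K` in which `N ≠ 0`. -/
theorem exists_JIndep_field (K : Type*) [Field K] (N : ℕ) [NeZero N] (hN : (N : K) ≠ 0) :
    ∃ b : Fin (dedekindPsi N) → LaurentSeries ℤ,
      (∀ i, b i ∈ Algebra.adjoin ℤ (jSet ℤ N)) ∧
      JIndep K (fun i => coeffMap (Int.castRingHom K) (b i)) := by
  obtain ⟨p, hp⟩ := CharP.exists K
  rcases CharP.char_is_prime_or_zero K p with hpp | rfl
  · have : Fact p.Prime := ⟨hpp⟩
    have hpN : ¬ p ∣ N := fun h => hN ((CharP.cast_eq_zero_iff K p N).mpr h)
    obtain ⟨b, hb, hind⟩ := key_charL N p hpN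
    refine ⟨b, hb, ?_⟩
    have := (JIndep.map_iff (ZMod.castHom (dvd_refl p) K) _).mpr hind
    convert this using 2 with i
    rw [coeffMap_coeffMap]
    exact coeffMap_congr (RingHom.ext_int _ _) _
  · have : CharZero K := CharP.charP_to_charZero K
    obtain ⟨b, hb, hind⟩ := exists_JIndep (K := ℂ) N (Nat.cast_ne_zero.mpr (NeZero.ne N))
      (fun p hp _ => by
        have : NeZero p := ⟨hp.ne_zero⟩
        exact nonempty_modData_complex hp)
    refine ⟨b, hb, ?_⟩
    have h1 : JIndep ℚ (fun i => coeffMap (Int.castRingHom ℚ) (b i)) := by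
      refine (JIndep.map_iff (algebraMap ℚ ℂ) _).mp ?_
      convert hind using 2 with i
      rw [coeffMap_coeffMap]
      exact coeffMap_congr (RingHom.ext_int _ _) _
    have := (JIndep.map_iff (algebraMap ℚ K) _).mpr h1
    convert this using 2 with i
    rw [coeffMap_coeffMap]
    exact coeffMap_congr (RingHom.ext_int _ _) _

theorem coeffMap_mem_full_of_mem_adjoin (K : Type*) [Field K] (N : ℕ) {b : LaurentSeries ℤ}
    (hb : b ∈ Algebra.adjoin ℤ (jSet ℤ N)) :
    coeffMap (Int.castRingHom K) b ∈ modularFunctionFieldFullC K N := by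
  induction hb using Algebra.adjoin_induction with
  | mem x hx =>
    obtain ⟨d, hd0, hd, rfl⟩ := hx
    rw [coeffMap_qExpand, coeffMap_jqModC]
    exact jqModCd_mem_full K N hd
  | algebraMap a =>
    rw [eq_intCast, map_intCast]
    exact intCast_mem _ a
  | add x y _ _ hx hy => rw [map_add]; exact add_mem hx hy
  | mul x y _ _ hx hy => rw [map_mul]; exact mul_mem hx hy

/-- the field `K(j) ⊆ K((q))` -/
abbrev kj (K : Type*) [Field K] : IntermediateField K (LaurentSeries K) :=
  IntermediateField.adjoin K {jqModC K}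

/-- **Degree argument.** If `x ∈ K((q))` is a root of a monic polynomial of degree `≤ ψ(N)` over
`K(j)` and all `j(q^d)`, `d ∣ N`, lie in `K(j)(x)`, then `x ∈ F_K(N)`. -/
theorem mem_full_of_degree_le (K : Type*) [Field K] (N : ℕ) [NeZero N] (hN : (N : K) ≠ 0)
    (x : LaurentSeries K) (p : Polynomial (kj K)) (hp : p.Monic)
    (hdeg : p.natDegree ≤ dedekindPsi N) (hroot : aeval x p = 0)
    (hgen : ∀ (d : ℕ) [NeZero d], d ∣ N →
      qExpand K d (jqModC K) ∈ IntermediateField.adjoin (kj K) {x}) :
    x ∈ modularFunctionFieldFullC K N := by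
  classical
  obtain ⟨b, hb, hind⟩ := exists_JIndep_field K N hN
  set E : IntermediateField (kj K) (LaurentSeries K) := IntermediateField.adjoin (kj K) {x} with hE
  have hint : IsIntegral (kj K) x := ⟨p, hp, hroot⟩
  have : FiniteDimensional (kj K) E := IntermediateField.adjoin.finiteDimensional hint
  have hfin : Module.finrank (kj K) E ≤ dedekindPsi N := by
    rw [hE, IntermediateField.adjoin.finrank hint]
    exact (natDegree_le_of_dvd (minpoly.dvd _ _ hroot) hp.ne_zero).trans hdeg
  have hFE : modularFunctionFieldFullC K N ≤ E.restrictScalars K := by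
    rw [modularFunctionFieldFullC, IntermediateField.adjoin_le_iff]
    rintro y ⟨d, hd, hdN, rfl⟩
    exact hgen d hdN
  have hbF : ∀ i, coeffMap (Int.castRingHom K) (b i) ∈ modularFunctionFieldFullC K N :=
    fun i => coeffMap_mem_full_of_mem_adjoin K N (hb i)
  have hlin : LinearIndependent (kj K) (fun i => coeffMap (Int.castRingHom K) (b i)) :=
    (JIndep_iff_linearIndependent _).mp hind
  let b' : Fin (dedekindPsi N) → E := fun i => ⟨coeffMap (Int.castRingHom K) (b i), hFE (hbF i)⟩
  have hlin' : LinearIndependent (kj K) b' := by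
    refine LinearIndependent.of_comp E.val.toLinearMap ?_
    exact hlin
  have hcard : Fintype.card (Fin (dedekindPsi N)) = Module.finrank (kj K) E := by
    refine le_antisymm hlin'.fintype_card_le_finrank ?_
    simpa using hfin
  have hspan := hlin'.span_eq_top_of_card_eq_finrank' hcard
  have hkF : ∀ c : kj K, (c : LaurentSeries K) ∈ modularFunctionFieldFullC K N := by
    intro c
    have : kj K ≤ modularFunctionFieldFullC K N := by
      rw [IntermediateField.adjoin_le_iff]
      rintro y rfl
      exact jqModC_mem_full K N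
    exact this c.2
  have hx : (⟨x, IntermediateField.mem_adjoin_simple_self _ x⟩ : E) ∈
      Submodule.span (kj K) (Set.range b') := by
    rw [hspan]; trivial
  have key : ∀ y : E, y ∈ Submodule.span (kj K) (Set.range b') →
      (y : LaurentSeries K) ∈ modularFunctionFieldFullC K N := by
    intro y hy
    induction hy using Submodule.span_induction with
    | mem z hz =>
      obtain ⟨i, rfl⟩ := hz
      exact hbF i
    | zero => exact zero_mem _
    | add y z _ _ hy hz => exact add_mem hy hz
    | smul c y _ hy => exact mul_mem (hkF c) hy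
  exact key _ hx

/-- `j` as an element of `K(j)` -/
def jkj (K : Type*) [Field K] : kj K := ⟨jqModC K, IntermediateField.mem_adjoin_simple_self K _⟩

theorem dedekindPsi_two : dedekindPsi 2 = 3 := by
  decide +kernel

theorem dedekindPsi_three : dedekindPsi 3 = 4 := by
  decide +kernel

theorem haupt2_ne_zero (K : Type*) [Field K] (h2 : (2 : K) ≠ 0) : haupt K 2 24 ≠ 0 := by
  intro h
  have h1 := haupt2_rel_one K
  rw [h] at h1
  have h3 : (256 : LaurentSeries K) ^ 3 = 0 := by simpa using h1.symm
  have h4 : (256 : LaurentSeries K) = 0 := by simpa using h3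
  have h5 : (256 : LaurentSeries K) = HahnSeries.C (256 : K) :=
    (map_ofNat (HahnSeries.C : K →+* LaurentSeries K) 256).symm
  rw [h5, map_eq_zero] at h4
  have h6 : (2 : K) ^ 8 = 0 := by rw [← h4]; norm_num
  exact h2 (by simpa using h6)

theorem haupt2_mem (K : Type*) [Field K] (h2 : (2 : K) ≠ 0) :
    haupt K 2 24 ∈ modularFunctionFieldFullC K 2 := by
  set t := haupt K 2 24 with ht
  have ht0 : t ≠ 0 := haupt2_ne_zero K h2
  refine mem_full_of_degree_le K 2 (by exact_mod_cast h2) t
    (X ^ 3 + C (768 - jkj K) * X ^ 2 + C 196608 * X + C 16777216) (by monicity!) ?_ ?_ ?_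
  · rw [dedekindPsi_two]
    compute_degree
  · have h1 := haupt2_rel_one K
    simp only [map_add, map_mul, map_pow, aeval_X, aeval_C, map_sub, map_ofNat]
    have h3 : algebraMap (kj K) (LaurentSeries K) (jkj K) = jqModC K := rfl
    rw [h3]
    linear_combination -h1
  · intro d _ hd
    have hd' : d = 1 ∨ d = 2 := by
      have := (Nat.dvd_prime Nat.prime_two).mp hd
      exact this
    rcases hd' with rfl | rfl
    · rw [qExpand_one_apply]
      exact IntermediateField.algebraMap_mem _ (jkj K)
    · have h1 := haupt2_rel_two K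
      have h3 : qExpand K 2 (jqModC K) = (t + 16) ^ 3 * t⁻¹ := by
        rw [eq_mul_inv_iff_mul_eq₀ ht0]
        exact h1
      rw [h3]
      have htE : t ∈ IntermediateField.adjoin (kj K) {t} :=
        IntermediateField.mem_adjoin_simple_self _ t
      exact mul_mem (pow_mem (add_mem htE (ofNat_mem _ 16)) 3) (inv_mem htE)

theorem haupt3_ne_zero (K : Type*) [Field K] (h3 : (3 : K) ≠ 0) : haupt K 3 12 ≠ 0 := by
  intro h
  have h1 := haupt3_rel_one K
  rw [h] at h1
  have h2 : (27 : LaurentSeries K) * 243 ^ 3 = 0 := by simpa using h1.symm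
  have h5 : (27 : LaurentSeries K) * 243 ^ 3 = HahnSeries.C ((3 : K) ^ 18) := by
    rw [map_pow, map_ofNat]; norm_num
  rw [h5, map_eq_zero] at h2
  exact h3 (by simpa using h2)

theorem haupt3_mem (K : Type*) [Field K] (h3 : (3 : K) ≠ 0) :
    haupt K 3 12 ∈ modularFunctionFieldFullC K 3 := by
  set t := haupt K 3 12 with ht
  have ht0 : t ≠ 0 := haupt3_ne_zero K h3
  refine mem_full_of_degree_le K 3 (by exact_mod_cast h3) t
    (X ^ 4 + C (756 - jkj K) * X ^ 3 + C 196830 * X ^ 2 + C 19131876 * X + C 387420489)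
    (by monicity!) ?_ ?_ ?_
  · rw [dedekindPsi_three]
    compute_degree
  · have h1 := haupt3_rel_one K
    simp only [map_add, map_mul, map_pow, aeval_X, aeval_C, map_sub, map_ofNat]
    have h3 : algebraMap (kj K) (LaurentSeries K) (jkj K) = jqModC K := rfl
    rw [h3]
    linear_combination -h1
  · intro d _ hd
    have hd' : d = 1 ∨ d = 3 := (Nat.dvd_prime Nat.prime_three).mp hd
    rcases hd' with rfl | rfl
    · rw [qExpand_one_apply]
      exact IntermediateField.algebraMap_mem _ (jkj K)
    · have h1 := haupt3_rel_three K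
      have h3 : qExpand K 3 (jqModC K) = (t + 27) * (t + 3) ^ 3 * t⁻¹ := by
        rw [eq_mul_inv_iff_mul_eq₀ ht0]
        exact h1
      rw [h3]
      have htE : t ∈ IntermediateField.adjoin (kj K) {t} :=
        IntermediateField.mem_adjoin_simple_self _ t
      exact mul_mem (mul_mem (add_mem htE (ofNat_mem _ 27))
        (pow_mem (add_mem htE (ofNat_mem _ 3)) 3)) (inv_mem htE)

theorem haupt2_mem_of_dvd (K : Type*) [Field K] (h2 : (2 : K) ≠ 0) (N : ℕ) [NeZero N]
    (hN : 2 ∣ N) : haupt K 2 24 ∈ modularFunctionFieldFullC K N :=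
  full_degeneracyC_le K hN (haupt2_mem K h2)

theorem haupt3_mem_of_dvd (K : Type*) [Field K] (h3 : (3 : K) ≠ 0) (N : ℕ) [NeZero N]
    (hN : 3 ∣ N) : haupt K 3 12 ∈ modularFunctionFieldFullC K N :=
  full_degeneracyC_le K hN (haupt3_mem K h3)

/-- `F_K(2) = K(t₂)` -/
theorem full_two_eq_adjoin (K : Type*) [Field K] (h2 : (2 : K) ≠ 0) :
    modularFunctionFieldFullC K 2 = IntermediateField.adjoin K {haupt K 2 24} := by
  set t := haupt K 2 24 with ht
  have ht0 : t ≠ 0 := haupt2_ne_zero K h2
  have htE : t ∈ IntermediateField.adjoin K {t} := IntermediateField.mem_adjoin_simple_self _ t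
  apply le_antisymm
  · rw [modularFunctionFieldFullC, IntermediateField.adjoin_le_iff]
    rintro y ⟨d, hd, hdN, rfl⟩
    have hd' : d = 1 ∨ d = 2 := (Nat.dvd_prime Nat.prime_two).mp hdN
    rcases hd' with rfl | rfl
    · have h1 := haupt2_rel_one K
      have h3 : qExpand K 1 (jqModC K) = (t + 256) ^ 3 * (t ^ 2)⁻¹ := by
        rw [qExpand_one_apply, eq_mul_inv_iff_mul_eq₀ (pow_ne_zero 2 ht0)]
        exact h1
      rw [h3]
      exact mul_mem (pow_mem (add_mem htE (ofNat_mem _ 256)) 3) (inv_mem (pow_mem htE 2))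
    · have h1 := haupt2_rel_two K
      have h3 : qExpand K 2 (jqModC K) = (t + 16) ^ 3 * t⁻¹ := by
        rw [eq_mul_inv_iff_mul_eq₀ ht0]
        exact h1
      rw [h3]
      exact mul_mem (pow_mem (add_mem htE (ofNat_mem _ 16)) 3) (inv_mem htE)
  · rw [IntermediateField.adjoin_le_iff]
    rintro y rfl
    exact haupt2_mem K h2

/-- `F_K(3) = K(t₃)` -/
theorem full_three_eq_adjoin (K : Type*) [Field K] (h3 : (3 : K) ≠ 0) :
    modularFunctionFieldFullC K 3 = IntermediateField.adjoin K {haupt K 3 12} := by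
  set t := haupt K 3 12 with ht
  have ht0 : t ≠ 0 := haupt3_ne_zero K h3
  have htE : t ∈ IntermediateField.adjoin K {t} := IntermediateField.mem_adjoin_simple_self _ t
  apply le_antisymm
  · rw [modularFunctionFieldFullC, IntermediateField.adjoin_le_iff]
    rintro y ⟨d, hd, hdN, rfl⟩
    have hd' : d = 1 ∨ d = 3 := (Nat.dvd_prime Nat.prime_three).mp hdN
    rcases hd' with rfl | rfl
    · have h1 := haupt3_rel_one K
      have h3 : qExpand K 1 (jqModC K) = (t + 27) * (t + 243) ^ 3 * (t ^ 3)⁻¹ := by
        rw [qExpand_one_apply, eq_mul_inv_iff_mul_eq₀ (pow_ne_zero 3 ht0)]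
        exact h1
      rw [h3]
      exact mul_mem (mul_mem (add_mem htE (ofNat_mem _ 27))
        (pow_mem (add_mem htE (ofNat_mem _ 243)) 3)) (inv_mem (pow_mem htE 3))
    · have h1 := haupt3_rel_three K
      have h3 : qExpand K 3 (jqModC K) = (t + 27) * (t + 3) ^ 3 * t⁻¹ := by
        rw [eq_mul_inv_iff_mul_eq₀ ht0]
        exact h1
      rw [h3]
      exact mul_mem (mul_mem (add_mem htE (ofNat_mem _ 27))
        (pow_mem (add_mem htE (ofNat_mem _ 3)) 3)) (inv_mem htE)
  · rw [IntermediateField.adjoin_le_iff]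
    rintro y rfl
    exact haupt3_mem K h3

end

end Fermat.Agent.ESlib
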