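import Mathlib
import Fermat.Prelude.Def_ModularCurve_JqCoeff
import Fermat.Prelude.Def_ModularCurve_X0ModL

/-!
# T-ES, Part H: the Hauptmoduln `t₂ = (η(z)/η(2z))²⁴`, `t₃ = (η(z)/η(3z))¹²` (formal definitions)

`t₂ = haupt K 2 24`, `t₃ = haupt K 3 12`.

`haupt K N r = q⁻¹ ∏ (1 - qⁿ)^r / (1 - q^{Nn})^r ∈ K((q))`, for every commutative ring `K`.
-/

set_option autoImplicit false

namespace Fermat.Agent.ESlib

open ModularCurve

noncomputable section

/-- the inverse of `∏ (1 - qⁿ)` in `ℤ[[q]]` -/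
def etaProdInv : PowerSeries ℤ := etaProd.invOfUnit 1

theorem etaProd_mul_inv : etaProd * etaProdInv = 1 :=
  PowerSeries.mul_invOfUnit _ _ (by rw [constantCoeff_etaProd]; rfl)

/-- an integral power series as a Laurent series over `K` -/
def zL (K : Type*) [CommRing K] (A : PowerSeries ℤ) : LaurentSeries K :=
  HahnSeries.ofPowerSeries ℤ K (A.map (Int.castRingHom K))

/-- `q⁻¹ ∏ (1 - qⁿ)^r / (1 - q^{Nn})^r` -/
def haupt (K : Type*) [CommRing K] (N r : ℕ) [NeZero N] : LaurentSeries K :=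
  HahnSeries.single (-1 : ℤ) 1 * zL K (etaProd ^ r) * qExpand K N (zL K (etaProdInv ^ r))

end

end Fermat.Agent.ESlib
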