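import Mathlib

/-!
# ES library, part H1 (group theory): `Γ₀(r)` is generated by `T`, `-1`, `(1 0; r 1)` for `r = 2, 3`
-/

set_option autoImplicit false

open MatrixGroups ModularGroup

namespace Fermat.Agent.ESlib

/-- balanced remainder -/
theorem exists_balanced (x m : ℤ) (hm : m ≠ 0) : ∃ k : ℤ, 2 * |x + k * m| ≤ |m| := by
  have hn : 0 < m.natAbs := Int.natAbs_pos.mpr hm
  have h1 := Int.le_bmod (x := x) hn
  have h2 := Int.bmod_le (x := x) hn
  have h3 := Int.bmod_add_bdiv x m.natAbs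
  have habs : |m| = (m.natAbs : ℤ) := Int.abs_eq_natAbs m
  have key : 2 * |Int.bmod x m.natAbs| ≤ (m.natAbs : ℤ) := by
    rw [abs_eq_max_neg]
    omega
  rcases lt_or_gt_of_ne hm with h | h
  · refine ⟨Int.bdiv x m.natAbs, ?_⟩
    have h4 : (m.natAbs : ℤ) = -m := by omega
    have h5 : x + Int.bdiv x m.natAbs * m = Int.bmod x m.natAbs := by
      rw [h4] at h3
      linarith
    rw [h5, habs]
    exact key
  · refine ⟨-Int.bdiv x m.natAbs, ?_⟩
    have h4 : (m.natAbs : ℤ) = m := by omega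
    have h5 : x + -Int.bdiv x m.natAbs * m = Int.bmod x m.natAbs := by
      rw [h4] at h3
      linarith
    rw [h5, habs]
    exact key

/-- the matrix `(1 0; k 1)` -/
def lowerUni (k : ℤ) : SL(2, ℤ) := ⟨!![1, 0; k, 1], by simp [Matrix.det_fin_two_of]⟩

theorem coe_lowerUni (k : ℤ) : (lowerUni k : Matrix (Fin 2) (Fin 2) ℤ) = !![1, 0; k, 1] := rfl

theorem lowerUni_add (k l : ℤ) : lowerUni (k + l) = lowerUni k * lowerUni l := by
  apply Subtype.ext
  rw [Matrix.SpecialLinearGroup.coe_mul]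
  simp [lowerUni]

theorem lowerUni_zero : lowerUni 0 = 1 := by
  ext i j
  fin_cases i <;> fin_cases j <;> simp [lowerUni]

theorem lowerUni_neg (k : ℤ) : lowerUni (-k) = (lowerUni k)⁻¹ := by
  rw [eq_inv_iff_mul_eq_one, ← lowerUni_add, neg_add_cancel, lowerUni_zero]

theorem lowerUni_mul_mem {H : Subgroup SL(2, ℤ)} {r : ℤ} (h : lowerUni r ∈ H) (k : ℤ) :
    lowerUni (k * r) ∈ H := by
  induction k using Int.induction_on with
  | zero => rw [zero_mul, lowerUni_zero]; exact H.one_mem
  | succ k ih => rw [add_mul, one_mul, lowerUni_add]; exact H.mul_mem ih h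
  | pred k ih =>
    rw [sub_mul, one_mul, sub_eq_add_neg, lowerUni_add, lowerUni_neg]
    exact H.mul_mem ih (H.inv_mem h)

/-- `Γ₀(r)`, `r = 2, 3`, is generated by `T`, `(1 0; r 1)` and `-1`. -/
theorem Gamma0_le_closure (r : ℕ) (hr : r = 2 ∨ r = 3) :
    CongruenceSubgroup.Gamma0 r ≤ Subgroup.closure {T, lowerUni r, -1} := by
  set H := Subgroup.closure ({T, lowerUni r, -1} : Set SL(2, ℤ)) with hH
  have hT : T ∈ H := Subgroup.subset_closure (by simp)
  have hV : lowerUni r ∈ H := Subgroup.subset_closure (by simp)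
  have hneg : (-1 : SL(2, ℤ)) ∈ H := Subgroup.subset_closure (by simp)
  have main : ∀ n : ℕ, ∀ g : SL(2, ℤ), g ∈ CongruenceSubgroup.Gamma0 r → (g 1 0).natAbs = n →
      g ∈ H := by
    intro n
    induction n using Nat.strong_induction_on with
    | _ n ih =>
      intro g hg hn
      have hdet : g 0 0 * g 1 1 - g 0 1 * g 1 0 = 1 := by
        have := g.2; rw [Matrix.det_fin_two] at this; exact this
      have hdvd : (r : ℤ) ∣ g 1 0 := by
        rw [CongruenceSubgroup.Gamma0_mem, ZMod.intCast_zmod_eq_zero_iff_dvd] at hg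
        exact hg
      by_cases hc : g 1 0 = 0
      · -- `g = ± T ^ b`
        rw [hc, mul_zero, sub_zero] at hdet
        rcases Int.eq_one_or_neg_one_of_mul_eq_one' hdet with ⟨ha, hd⟩ | ⟨ha, hd⟩
        · have : g = T ^ (g 0 1) := by
            apply Subtype.ext
            rw [coe_T_zpow]
            ext i j
            fin_cases i <;> fin_cases j <;> simp [ha, hd, hc]
          rw [this]
          exact H.zpow_mem hT _
        · have : g = -1 * T ^ (-(g 0 1)) := by
            apply Subtype.ext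
            rw [Matrix.SpecialLinearGroup.coe_mul, coe_T_zpow]
            ext i j
            fin_cases i <;> fin_cases j <;> simp [ha, hd, hc, Matrix.mul_apply, Fin.sum_univ_two]
          rw [this]
          exact H.mul_mem hneg (H.zpow_mem hT _)
      · obtain ⟨k₁, hk₁⟩ := exists_balanced (g 1 1) (g 1 0) hc
        set g₁ : SL(2, ℤ) := g * T ^ k₁ with hg₁
        have e10 : g₁ 1 0 = g 1 0 := by
          simp [hg₁, Matrix.SpecialLinearGroup.coe_mul, coe_T_zpow, Matrix.mul_apply,
            Fin.sum_univ_two]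
        have e11 : g₁ 1 1 = g 1 1 + k₁ * g 1 0 := by
          simp [hg₁, Matrix.SpecialLinearGroup.coe_mul, coe_T_zpow, Matrix.mul_apply,
            Fin.sum_univ_two]
          ring
        have hdet₁ : g₁ 0 0 * g₁ 1 1 - g₁ 0 1 * g₁ 1 0 = 1 := by
          have := g₁.2; rw [Matrix.det_fin_two] at this; exact this
        have hr2 : (2 : ℤ) ≤ r := by rcases hr with rfl | rfl <;> norm_num
        have hr3 : (r : ℤ) ≤ 3 := by rcases hr with rfl | rfl <;> norm_num
        have hd' : g₁ 1 1 ≠ 0 := by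
          intro h0
          rw [h0, mul_zero, zero_sub, e10] at hdet₁
          have h1 : g 1 0 ∣ 1 := ⟨-g₁ 0 1, by linarith⟩
          have h2 : (r : ℤ) ∣ 1 := hdvd.trans h1
          have := Int.le_of_dvd one_pos h2
          omega
        have hrd : (r : ℤ) * g₁ 1 1 ≠ 0 := mul_ne_zero (by omega) hd'
        obtain ⟨k₂, hk₂⟩ := exists_balanced (g 1 0) ((r : ℤ) * g₁ 1 1) hrd
        set g₂ : SL(2, ℤ) := g₁ * lowerUni (k₂ * r) with hg₂
        have f10 : g₂ 1 0 = g 1 0 + k₂ * ((r : ℤ) * g₁ 1 1) := by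
          rw [hg₂, Matrix.SpecialLinearGroup.coe_mul, coe_lowerUni]
          simp [Matrix.mul_apply, Fin.sum_univ_two, e10]
          ring
        have hg₂mem : g₂ ∈ CongruenceSubgroup.Gamma0 r := by
          rw [CongruenceSubgroup.Gamma0_mem, ZMod.intCast_zmod_eq_zero_iff_dvd, f10]
          exact dvd_add hdvd (Dvd.intro_left (k₂ * g₁ 1 1) (by ring))
        have hlt : (g₂ 1 0).natAbs < n := by
          rw [← hn]
          have h1 : 2 * |g₂ 1 0| ≤ (r : ℤ) * |g₁ 1 1| := by
            rw [f10]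
            calc _ ≤ |(r : ℤ) * g₁ 1 1| := hk₂
              _ = (r : ℤ) * |g₁ 1 1| := by rw [abs_mul, abs_of_nonneg (by omega : (0 : ℤ) ≤ r)]
          have h2 : 2 * |g₁ 1 1| ≤ |g 1 0| := by rw [e11]; exact hk₁
          have h3 : 0 < |g 1 0| := abs_pos.mpr hc
          have h4 : |g₂ 1 0| < |g 1 0| := by
            have h5 : 0 ≤ |g₁ 1 1| := abs_nonneg _
            nlinarith
          rw [Int.abs_eq_natAbs, Int.abs_eq_natAbs] at h4
          exact_mod_cast h4
        have hg₂H : g₂ ∈ H := ih _ hlt g₂ hg₂mem rfl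
        have : g = g₂ * (lowerUni (k₂ * r))⁻¹ * (T ^ k₁)⁻¹ := by
          rw [hg₂, hg₁]
          group
        rw [this]
        exact H.mul_mem (H.mul_mem hg₂H (H.inv_mem (lowerUni_mul_mem hV k₂)))
          (H.inv_mem (H.zpow_mem hT _))
  exact fun g hg => main _ g hg rfl

end Fermat.Agent.ESlib
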