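import Fermat.Agent.ES.H.Gen23

/-!
# ES library, part H1: the Hauptmoduln `t_r = (η(z)/η(rz))^c`, `c (r - 1) = 24`
-/

set_option autoImplicit false

open UpperHalfPlane hiding I
open ModularForm Complex MatrixGroups ModularGroup Filter Topology
open scoped Manifold Real

namespace Fermat.Agent.ESlib


/-- `η (z + n) = e^{2 π i n / 24} η (z)` -/
theorem eta_add_nat (z : ℂ) (n : ℕ) :
    η (z + n) = Complex.exp (2 * π * I * n / 24) * η z := by
  unfold ModularForm.eta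
  have h1 : Function.Periodic.qParam 24 (z + n) =
      Complex.exp (2 * π * I * n / 24) * Function.Periodic.qParam 24 z := by
    rw [Function.Periodic.qParam, Function.Periodic.qParam, ← Complex.exp_add]
    congr 1
    push_cast
    ring
  have h2 : ∀ k, ModularForm.eta_q k (z + n) = ModularForm.eta_q k z := by
    intro k
    rw [ModularForm.eta_q_eq_pow, ModularForm.eta_q_eq_pow]
    congr 1
    rw [mul_add, Complex.exp_add]
    have : Complex.exp (2 * π * I * n) = 1 := by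
      rw [mul_comm]
      exact Complex.exp_nat_mul_two_pi_mul_I n
    rw [this, mul_one]
  simp only [h1, h2, mul_assoc]

theorem im_nat_mul_pos {r : ℕ} (hr : r ≠ 0) {z : ℂ} (hz : 0 < z.im) : 0 < ((r : ℂ) * z).im := by
  have : ((r : ℂ) * z).im = r * z.im := by simp
  rw [this]
  have : (0 : ℝ) < r := by exact_mod_cast Nat.pos_of_ne_zero hr
  positivity

/-- `t_{r,c}(τ) = (η(τ)/η(rτ))^c` -/
noncomputable def tH (r c : ℕ) (τ : ℍ) : ℂ := (η (τ : ℂ) / η ((r : ℂ) * τ)) ^ c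

theorem tH_ne_zero {r : ℕ} (hr : r ≠ 0) (c : ℕ) (τ : ℍ) : tH r c τ ≠ 0 :=
  pow_ne_zero _ (div_ne_zero (eta_ne_zero τ.im_pos) (eta_ne_zero (im_nat_mul_pos hr τ.im_pos)))

theorem mdiff_tH {r : ℕ} (hr : r ≠ 0) (c : ℕ) : MDiff (tH r c) := by
  rw [UpperHalfPlane.mdifferentiable_iff]
  have h : DifferentiableOn ℂ (fun z : ℂ => (η z / η ((r : ℂ) * z)) ^ c) {z : ℂ | 0 < z.im} := by
    intro z hz
    have h1 : DifferentiableAt ℂ η z := differentiableAt_eta_of_mem_upperHalfPlaneSet hz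
    have h2 : DifferentiableAt ℂ η ((r : ℂ) * z) :=
      differentiableAt_eta_of_mem_upperHalfPlaneSet (im_nat_mul_pos hr hz)
    have h3 : DifferentiableAt ℂ (fun z : ℂ => η ((r : ℂ) * z)) z :=
      h2.comp z (by fun_prop)
    exact ((h1.div h3 (eta_ne_zero (im_nat_mul_pos hr hz))).pow c).differentiableWithinAt
  apply h.congr
  intro z hz
  simp [tH, ofComplex_apply_of_im_pos hz]

/-- invariance under `τ ↦ τ + 1` -/
theorem tH_T_smul {r c : ℕ} (hc : c * (r - 1) = 24) (τ : ℍ) : tH r c (T • τ) = tH r c τ := by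
  have hr : 1 ≤ r := by
    by_contra h
    have : r = 0 := by omega
    subst this
    simp at hc
  have hcoe : ((T • τ : ℍ) : ℂ) = τ + (1 : ℕ) := by
    rw [UpperHalfPlane.modular_T_smul, UpperHalfPlane.coe_vadd]
    push_cast
    ring
  unfold tH
  have h2 : (r : ℂ) * ((τ : ℂ) + (1 : ℕ)) = (r : ℂ) * τ + r := by push_cast; ring
  rw [hcoe, h2, eta_add_nat, eta_add_nat]
  set ε : ℂ := Complex.exp (2 * π * I / 24) with hε
  have e1 : Complex.exp (2 * π * I * (1 : ℕ) / 24) = ε := by rw [hε]; congr 1; push_cast; ring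
  have e2 : Complex.exp (2 * π * I * r / 24) = ε ^ r := by
    rw [hε, ← Complex.exp_nat_mul]; congr 1; ring
  have e24 : ε ^ 24 = 1 := by
    rw [hε, ← Complex.exp_nat_mul]
    have : ((24 : ℕ) : ℂ) * (2 * π * I / 24) = 2 * π * I := by push_cast; ring
    rw [this, Complex.exp_two_pi_mul_I]
  have hε0 : ε ≠ 0 := Complex.exp_ne_zero _
  rw [e1, e2, mul_div_mul_comm, mul_pow, div_pow, ← pow_mul]
  have hrc : r * c = c + 24 := by
    obtain ⟨s, rfl⟩ : ∃ s, r = s + 1 := ⟨r - 1, by omega⟩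
    simp only [Nat.add_sub_cancel] at hc
    rw [← hc]; ring
  rw [hrc, pow_add, e24, mul_one, div_self (pow_ne_zero _ hε0), one_mul]

theorem tH_T_inv_smul {r c : ℕ} (hc : c * (r - 1) = 24) (τ : ℍ) :
    tH r c (T⁻¹ • τ) = tH r c τ := by
  have := tH_T_smul hc (T⁻¹ • τ)
  rw [smul_inv_smul] at this
  exact this.symm

theorem im_fricke_pos {r : ℕ} (hr : r ≠ 0) {z : ℂ} (hz : 0 < z.im) :
    0 < (-1 / ((r : ℂ) * z)).im := by
  have h1 := im_nat_mul_pos hr hz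
  have := UpperHalfPlane.im_inv_neg_coe_pos ⟨(r : ℂ) * z, h1⟩
  have e : (-1 / ((r : ℂ) * z)) = (-((r : ℂ) * z))⁻¹ := by
    rw [neg_div, one_div, inv_neg]
  rw [e]
  exact this

/-- the Fricke involution `τ ↦ -1/(rτ)` -/
noncomputable def frickeH (r : ℕ) (τ : ℍ) : ℍ := ofComplex (-1 / ((r : ℂ) * τ))

theorem coe_frickeH {r : ℕ} (hr : r ≠ 0) (τ : ℍ) :
    ((frickeH r τ : ℍ) : ℂ) = -1 / ((r : ℂ) * τ) := by
  rw [frickeH, ofComplex_apply_of_im_pos (im_fricke_pos hr τ.im_pos)]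

theorem sqrt_pow_two_mul (z : ℂ) (k : ℕ) : Complex.sqrt z ^ (2 * k) = z ^ k := by
  rw [pow_mul]
  congr 1
  have := Complex.cpow_nat_inv_pow z (two_ne_zero)
  simp only [Nat.cast_ofNat] at this
  exact this

/-- `t(-1/(rτ)) = r^{c/2} / t(τ)` -/
theorem tH_frickeH {r : ℕ} (hr : r ≠ 0) (k : ℕ) (τ : ℍ) :
    tH r (2 * k) (frickeH r τ) = (r : ℂ) ^ k / tH r (2 * k) τ := by
  have hrC : (r : ℂ) ≠ 0 := by exact_mod_cast hr
  have hτ : (τ : ℂ) ≠ 0 := τ.ne_zero
  have h1 : η (-1 / ((r : ℂ) * τ)) =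
      (Complex.sqrt I)⁻¹ * (Complex.sqrt ((r : ℂ) * τ) * η ((r : ℂ) * τ)) := by
    simpa using eta_comp_eq_csqrt_I_inv (im_nat_mul_pos hr τ.im_pos)
  have h2 : η (-1 / (τ : ℂ)) = (Complex.sqrt I)⁻¹ * (Complex.sqrt τ * η τ) := by
    simpa using eta_comp_eq_csqrt_I_inv τ.im_pos
  have h3 : (r : ℂ) * (-1 / ((r : ℂ) * τ)) = -1 / τ := by field_simp
  have hI : Complex.sqrt I ≠ 0 := by
    intro h0
    have := sqrt_pow_two_mul I 1
    rw [h0] at this
    simp at this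
    exact Complex.I_ne_zero this.symm
  have hη1 := eta_ne_zero τ.im_pos
  have hη2 := eta_ne_zero (im_nat_mul_pos hr τ.im_pos)
  unfold tH
  rw [coe_frickeH hr, h3, h1, h2, mul_div_mul_left _ _ (inv_ne_zero hI), mul_div_mul_comm, mul_pow,
    div_pow (Complex.sqrt _), sqrt_pow_two_mul, sqrt_pow_two_mul, mul_pow, mul_div_assoc,
    div_self (pow_ne_zero _ hτ), mul_one, div_pow, div_pow]
  field_simp

/-- `(1 0; r 1) = W T⁻¹ W` as Möbius transformations -/
theorem lowerUni_smul_eq {r : ℕ} (hr : r ≠ 0) (τ : ℍ) :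
    lowerUni r • τ = frickeH r (T⁻¹ • frickeH r τ) := by
  have hrC : (r : ℂ) ≠ 0 := by exact_mod_cast hr
  have hτ : (τ : ℂ) ≠ 0 := τ.ne_zero
  have hT : ∀ z : ℍ, ((T⁻¹ • z : ℍ) : ℂ) = z - 1 := by
    intro z
    have := UpperHalfPlane.modular_T_zpow_smul z (-1)
    rw [zpow_neg_one] at this
    rw [this, UpperHalfPlane.coe_vadd]
    push_cast
    ring
  have hden : (r : ℂ) * τ + 1 ≠ 0 := by
    have := UpperHalfPlane.denom_ne_zero (lowerUni r) τ
    simpa [UpperHalfPlane.denom, coe_lowerUni] using this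
  ext
  rw [coe_frickeH hr, hT, coe_frickeH hr, UpperHalfPlane.coe_specialLinearGroup_apply]
  simp only [coe_lowerUni, Matrix.of_apply, Matrix.cons_val_zero, Matrix.cons_val_one,
    Matrix.cons_val', Matrix.cons_val_fin_one, algebraMap_int_eq, eq_intCast, Int.cast_one,
    Int.cast_zero, Int.cast_natCast, Complex.ofReal_one, Complex.ofReal_zero,
    Complex.ofReal_natCast, one_mul, add_zero]
  have h2 : -1 - (r : ℂ) * τ ≠ 0 := by
    intro h
    apply hden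
    linear_combination -h
  have h3 : -1 / ((r : ℂ) * τ) - 1 = (-1 - (r : ℂ) * τ) / ((r : ℂ) * τ) := by
    field_simp
  rw [h3, div_eq_div_iff hden (mul_ne_zero hrC (div_ne_zero h2 (mul_ne_zero hrC hτ)))]
  field_simp
  ring

theorem tH_lowerUni_smul {r k : ℕ} (hc : 2 * k * (r - 1) = 24) (τ : ℍ) :
    tH r (2 * k) (lowerUni r • τ) = tH r (2 * k) τ := by
  have hr : r ≠ 0 := by
    rintro rfl
    simp at hc
  have hrC : (r : ℂ) ≠ 0 := by exact_mod_cast hr
  rw [lowerUni_smul_eq hr, tH_frickeH hr, tH_T_inv_smul hc, tH_frickeH hr]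
  have := tH_ne_zero hr (2 * k) τ
  field_simp

/-- the stabiliser of a function on `ℍ` -/
def stabH (f : ℍ → ℂ) : Subgroup SL(2, ℤ) where
  carrier := {g | ∀ τ : ℍ, f (g • τ) = f τ}
  one_mem' := fun τ => by rw [one_smul]
  mul_mem' := fun {a b} ha hb τ => by rw [mul_smul, ha, hb]
  inv_mem' := fun {a} ha τ => by
    have := ha (a⁻¹ • τ)
    rw [smul_inv_smul] at this
    exact this.symm

theorem mem_stabH {f : ℍ → ℂ} {g : SL(2, ℤ)} : g ∈ stabH f ↔ ∀ τ : ℍ, f (g • τ) = f τ := Iff.rfl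

/-- **`Γ₀(r)`-invariance of the Hauptmodul**, `r = 2, 3`. -/
theorem tH_Gamma0_smul {r k : ℕ} (hr : r = 2 ∨ r = 3) (hc : 2 * k * (r - 1) = 24)
    (g : SL(2, ℤ)) (hg : g ∈ CongruenceSubgroup.Gamma0 r) (τ : ℍ) :
    tH r (2 * k) (g • τ) = tH r (2 * k) τ := by
  have hle : Subgroup.closure ({T, lowerUni r, -1} : Set SL(2, ℤ)) ≤ stabH (tH r (2 * k)) := by
    rw [Subgroup.closure_le]
    rintro x (rfl | rfl | rfl)
    · exact tH_T_smul hc
    · exact tH_lowerUni_smul hc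
    · intro τ
      rw [ModularGroup.SL_neg_smul, one_smul]
  exact hle (Gamma0_le_closure r hr hg) τ

/-- `t₂ = (η(z)/η(2z))^24` -/
noncomputable abbrev t2 : ℍ → ℂ := tH 2 (2 * 12)

/-- `t₃ = (η(z)/η(3z))^12` -/
noncomputable abbrev t3 : ℍ → ℂ := tH 3 (2 * 6)

theorem t2_Gamma0_smul (g : SL(2, ℤ)) (hg : g ∈ CongruenceSubgroup.Gamma0 2) (τ : ℍ) :
    t2 (g • τ) = t2 τ := tH_Gamma0_smul (Or.inl rfl) (by norm_num) g hg τ

theorem t3_Gamma0_smul (g : SL(2, ℤ)) (hg : g ∈ CongruenceSubgroup.Gamma0 3) (τ : ℍ) :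
    t3 (g • τ) = t3 τ := tH_Gamma0_smul (Or.inr rfl) (by norm_num) g hg τ

theorem t2_frickeH (τ : ℍ) : t2 (frickeH 2 τ) = 4096 / t2 τ := by
  have := tH_frickeH (r := 2) two_ne_zero 12 τ
  show tH 2 (2 * 12) (frickeH 2 τ) = 4096 / tH 2 (2 * 12) τ
  rw [this]; norm_num

theorem t3_frickeH (τ : ℍ) : t3 (frickeH 3 τ) = 729 / t3 τ := by
  have := tH_frickeH (r := 3) three_ne_zero 6 τ
  show tH 3 (2 * 6) (frickeH 3 τ) = 729 / tH 3 (2 * 6) τ
  rw [this]; norm_num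

end Fermat.Agent.ESlib
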