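import Fermat.Agent.S16.UpVp

/-!
# T-ES, Part H: truncated arithmetic of integral power series with lists (kernel computable)
-/

set_option autoImplicit false

namespace Fermat.Agent.ESlib

open PowerSeries Fermat.Agent.S16lib

/-- the list `[f 0, ..., f (n-1)]` -/
def tab (n : ℕ) (f : ℕ → ℤ) : List ℤ := (List.range n).map f

theorem getD_tab {n : ℕ} (f : ℕ → ℤ) {i : ℕ} (hi : i < n) : (tab n f).getD i 0 = f i := by
  simp [tab, List.getD_eq_getElem?_getD, hi]

/-- `A ≡ l mod X^n` -/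
def Apx (n : ℕ) (A : PowerSeries ℤ) (l : List ℤ) : Prop :=
  ∀ i, i < n → coeff i A = l.getD i 0

def lsum (m : ℕ) (f : ℕ → ℤ) : ℤ := ((List.range m).map f).sum

theorem lsum_eq (m : ℕ) (f : ℕ → ℤ) : lsum m f = ∑ i ∈ Finset.range m, f i := by
  induction m with
  | zero => simp [lsum]
  | succ m ih =>
    rw [Finset.sum_range_succ, ← ih]
    simp [lsum, List.range_succ]

def lmul (n : ℕ) (l l' : List ℤ) : List ℤ :=
  tab n fun k => lsum (k + 1) fun i => l.getD i 0 * l'.getD (k - i) 0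

def ladd (n : ℕ) (l l' : List ℤ) : List ℤ := tab n fun k => l.getD k 0 + l'.getD k 0

def lsub (n : ℕ) (l l' : List ℤ) : List ℤ := tab n fun k => l.getD k 0 - l'.getD k 0

def lsmul (n : ℕ) (c : ℤ) (l : List ℤ) : List ℤ := tab n fun k => c * l.getD k 0

def lexp (n d : ℕ) (l : List ℤ) : List ℤ := tab n fun k => if d ∣ k then l.getD (k / d) 0 else 0

def lpow (n : ℕ) (l : List ℤ) : ℕ → List ℤ
  | 0 => tab n fun k => if k = 0 then 1 else 0
  | m + 1 => lmul n (lpow n l m) l

variable {n : ℕ} {A B : PowerSeries ℤ} {l l' : List ℤ}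

theorem Apx.mul (h : Apx n A l) (h' : Apx n B l') : Apx n (A * B) (lmul n l l') := by
  intro k hk
  rw [lmul, getD_tab _ hk, lsum_eq, coeff_mul,
    Finset.Nat.sum_antidiagonal_eq_sum_range_succ (fun i j => coeff i A * coeff j B)]
  refine Finset.sum_congr rfl fun i hi => ?_
  have hi' : i < k + 1 := Finset.mem_range.1 hi
  rw [h i (by omega), h' (k - i) (by omega)]

theorem Apx.add (h : Apx n A l) (h' : Apx n B l') : Apx n (A + B) (ladd n l l') := by
  intro k hk
  rw [ladd, getD_tab _ hk, map_add, h k hk, h' k hk]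

theorem Apx.sub (h : Apx n A l) (h' : Apx n B l') : Apx n (A - B) (lsub n l l') := by
  intro k hk
  rw [lsub, getD_tab _ hk, map_sub, h k hk, h' k hk]

theorem Apx.smul (c : ℤ) (h : Apx n A l) : Apx n ((c : PowerSeries ℤ) * A) (lsmul n c l) := by
  intro k hk
  rw [lsmul, getD_tab _ hk, ← h k hk]
  rw [show (c : PowerSeries ℤ) = C c by simp, coeff_C_mul]

theorem Apx.vp (d : ℕ) (hd : d ≠ 0) (h : Apx n A l) : Apx n (Vp d A) (lexp n d l) := by
  intro k hk
  rw [lexp, getD_tab _ hk, Vp, coeff_mk]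
  split_ifs with hdk
  · exact h _ (lt_of_le_of_lt (Nat.div_le_self k d) hk)
  · rfl

theorem apx_one : Apx n 1 (lpow n l 0) := by
  intro k hk
  rw [lpow, getD_tab _ hk, coeff_one]

theorem Apx.pow (h : Apx n A l) (m : ℕ) : Apx n (A ^ m) (lpow n l m) := by
  induction m with
  | zero => simpa using apx_one
  | succ m ih =>
    rw [pow_succ, lpow]
    exact ih.mul h

theorem Apx.congr (h : Apx n A l) (hl : l = l') : Apx n A l' := hl ▸ h

/-- division by a nonzero integer -/
theorem Apx.of_smul {c : ℤ} (hc : c ≠ 0) (h : Apx n ((c : PowerSeries ℤ) * A) (lsmul n c l)) :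
    Apx n A l := by
  intro k hk
  have h1 := h k hk
  rw [lsmul, getD_tab _ hk, show (c : PowerSeries ℤ) = C c by simp, coeff_C_mul] at h1
  exact mul_left_cancel₀ hc h1

theorem Apx.coeff_eq_zero (h : Apx n A (tab n fun _ => 0)) {i : ℕ} (hi : i < n) :
    coeff i A = 0 := by
  rw [h i hi, getD_tab _ hi]

end Fermat.Agent.ESlib
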