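import Fermat.Agent.ES.H.MF
import Fermat.Agent.ES.H.Trunc

/-!
# T-ES, Part H: the identities between `E₄(dz)`, `Δ(dz)` on `Γ₀(2)`, `Γ₀(3)` (Sturm bound)
-/

set_option autoImplicit false

namespace Fermat.Agent.ESlib

open PowerSeries Fermat.Agent.S16lib

def lE4 : List ℤ := [1, 240, 2160, 6720, 17520, 30240, 60480, 82560, 140400, 181680, 272160,
  319680, 490560, 527520, 743040, 846720, 1123440]

def lE6 : List ℤ := [1, -504, -16632, -122976, -532728, -1575504, -4058208, -8471232, -17047800,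
  -29883672, -51991632, -81170208, -129985632, -187132176, -279550656, -384422976, -545530104]

def lD : List ℤ := [0, 1, -24, 252, -1472, 4830, -6048, -16744, 84480, -113643, -115920, 534612,
  -370944, -577738, 401856, 1217160, 987136]

theorem apx_E4 : Apx 17 E4z lE4 := by
  intro i hi
  rw [coeff_E4z]
  interval_cases i <;> decide +kernel

theorem apx_E6 : Apx 17 E6z lE6 := by
  intro i hi
  rw [coeff_E6z]
  interval_cases i <;> decide +kernel

theorem apx_D : Apx 17 Dz lD := by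
  refine Apx.of_smul (c := 1728) (by norm_num) ?_
  have h : ((1728 : ℤ) : PowerSeries ℤ) * Dz = E4z ^ 3 - E6z ^ 2 := by
    rw [← Dz_identity]
    norm_num
  rw [h]
  exact ((apx_E4.pow 3).sub (apx_E6.pow 2)).congr (by decide +kernel)

theorem Vp_one_left (A : PowerSeries ℤ) : Vp 1 A = A := by
  ext n
  simp [Vp]

theorem isMF_E4 (N : ℕ) [NeZero N] : IsMF N 4 E4z := by
  have := IsL1.isMF (N := N) isL1_E4z (one_dvd N)
  rwa [Vp_one_left] at this

theorem isMF_D (N : ℕ) [NeZero N] : IsMF N 12 Dz := by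
  have := IsL1.isMF (N := N) isL1_Dz (one_dvd N)
  rwa [Vp_one_left] at this

theorem isMF_E4' (N : ℕ) [NeZero N] : IsMF N 4 (Vp N E4z) := IsL1.isMF isL1_E4z dvd_rfl

theorem isMF_D' (N : ℕ) [NeZero N] : IsMF N 12 (Vp N Dz) := IsL1.isMF isL1_Dz dvd_rfl

theorem psi_two : ModularCurve.dedekindPsi 2 = 3 := by decide +kernel

theorem psi_three : ModularCurve.dedekindPsi 3 = 4 := by decide +kernel

/-- Sturm bound with lists -/
theorem IsMF.eq_zero_of_apx {N : ℕ} [NeZero N] {k : ℤ} {F : PowerSeries ℤ} (h : IsMF N k F)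
    {n : ℕ} (hn : (k * (ModularCurve.dedekindPsi N : ℤ)).toNat / 12 < n)
    (ha : Apx n F (tab n fun _ => 0)) : F = 0 :=
  h.eq_zero fun _ hi => ha.coeff_eq_zero (lt_of_le_of_lt hi hn)

theorem ident2_one : E4z ^ 3 * (Dz * Vp 2 Dz) = (Dz + 256 * Vp 2 Dz) ^ 3 := by
  rw [← sub_eq_zero, show (256 : PowerSeries ℤ) = ((256 : ℤ) : PowerSeries ℤ) by norm_num]
  have h1 : IsMF 2 36 (E4z ^ 3 * (Dz * Vp 2 Dz) - (Dz + ((256 : ℤ) : PowerSeries ℤ) * Vp 2 Dz) ^ 3) :=
    ((((isMF_E4 2).pow 3).mul ((isMF_D 2).mul (isMF_D' 2))).congr_weight (by norm_num)).sub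
      ((((isMF_D 2).add ((isMF_D' 2).intCast_mul 256)).pow 3).congr_weight (by norm_num))
  refine h1.eq_zero_of_apx (n := 17) (by rw [psi_two]; decide) ?_
  exact (((apx_E4.pow 3).mul (apx_D.mul (apx_D.vp 2 (by norm_num)))).sub
    ((apx_D.add ((apx_D.vp 2 (by norm_num)).smul 256)).pow 3)).congr (by decide +kernel)

theorem ident2_two : Vp 2 E4z ^ 3 * (Dz * Vp 2 Dz) = (Dz + 16 * Vp 2 Dz) ^ 3 := by
  rw [← sub_eq_zero, show (16 : PowerSeries ℤ) = ((16 : ℤ) : PowerSeries ℤ) by norm_num]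
  have h1 : IsMF 2 36
      (Vp 2 E4z ^ 3 * (Dz * Vp 2 Dz) - (Dz + ((16 : ℤ) : PowerSeries ℤ) * Vp 2 Dz) ^ 3) :=
    ((((isMF_E4' 2).pow 3).mul ((isMF_D 2).mul (isMF_D' 2))).congr_weight (by norm_num)).sub
      ((((isMF_D 2).add ((isMF_D' 2).intCast_mul 16)).pow 3).congr_weight (by norm_num))
  refine h1.eq_zero_of_apx (n := 17) (by rw [psi_two]; decide) ?_
  exact ((((apx_E4.vp 2 (by norm_num)).pow 3).mul (apx_D.mul (apx_D.vp 2 (by norm_num)))).sub
    ((apx_D.add ((apx_D.vp 2 (by norm_num)).smul 16)).pow 3)).congr (by decide +kernel)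

theorem ident3_one_sq :
    Dz * Vp 3 Dz * (E4z ^ 3 - 756 * Dz - 19131876 * Vp 3 Dz) ^ 2 =
      (Dz ^ 2 + 196830 * (Dz * Vp 3 Dz) + 387420489 * Vp 3 Dz ^ 2) ^ 2 := by
  rw [← sub_eq_zero, show (756 : PowerSeries ℤ) = ((756 : ℤ) : PowerSeries ℤ) by norm_num,
    show (19131876 : PowerSeries ℤ) = ((19131876 : ℤ) : PowerSeries ℤ) by norm_num,
    show (196830 : PowerSeries ℤ) = ((196830 : ℤ) : PowerSeries ℤ) by norm_num,
    show (387420489 : PowerSeries ℤ) = ((387420489 : ℤ) : PowerSeries ℤ) by norm_num]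
  have hU : IsMF 3 12 (E4z ^ 3 - ((756 : ℤ) : PowerSeries ℤ) * Dz -
      ((19131876 : ℤ) : PowerSeries ℤ) * Vp 3 Dz) :=
    ((((isMF_E4 3).pow 3).congr_weight (by norm_num)).sub ((isMF_D 3).intCast_mul 756)).sub
      ((isMF_D' 3).intCast_mul 19131876)
  have hV : IsMF 3 24 (Dz ^ 2 + ((196830 : ℤ) : PowerSeries ℤ) * (Dz * Vp 3 Dz) +
      ((387420489 : ℤ) : PowerSeries ℤ) * Vp 3 Dz ^ 2) :=
    ((((isMF_D 3).pow 2).congr_weight (by norm_num)).add
      ((((isMF_D 3).mul (isMF_D' 3)).congr_weight (by norm_num)).intCast_mul 196830)).add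
      ((((isMF_D' 3).pow 2).congr_weight (by norm_num)).intCast_mul 387420489)
  have h1 := ((((isMF_D 3).mul (isMF_D' 3)).mul (hU.pow 2)).congr_weight
    (l := 48) (by norm_num)).sub ((hV.pow 2).congr_weight (by norm_num))
  refine h1.eq_zero_of_apx (n := 17) (by rw [psi_three]; decide) ?_
  have a3 := apx_D.vp 3 (by norm_num)
  exact (((apx_D.mul a3).mul ((((apx_E4.pow 3).sub (apx_D.smul 756)).sub
    (a3.smul 19131876)).pow 2)).sub
    ((((apx_D.pow 2).add ((apx_D.mul a3).smul 196830)).add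
      ((a3.pow 2).smul 387420489)).pow 2)).congr (by decide +kernel)

theorem ident3_three_sq :
    Dz * Vp 3 Dz * (Vp 3 E4z ^ 3 - 36 * Dz - 756 * Vp 3 Dz) ^ 2 =
      (Dz ^ 2 + 270 * (Dz * Vp 3 Dz) + 729 * Vp 3 Dz ^ 2) ^ 2 := by
  rw [← sub_eq_zero, show (756 : PowerSeries ℤ) = ((756 : ℤ) : PowerSeries ℤ) by norm_num,
    show (36 : PowerSeries ℤ) = ((36 : ℤ) : PowerSeries ℤ) by norm_num,
    show (270 : PowerSeries ℤ) = ((270 : ℤ) : PowerSeries ℤ) by norm_num,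
    show (729 : PowerSeries ℤ) = ((729 : ℤ) : PowerSeries ℤ) by norm_num]
  have hU : IsMF 3 12 (Vp 3 E4z ^ 3 - ((36 : ℤ) : PowerSeries ℤ) * Dz -
      ((756 : ℤ) : PowerSeries ℤ) * Vp 3 Dz) :=
    ((((isMF_E4' 3).pow 3).congr_weight (by norm_num)).sub ((isMF_D 3).intCast_mul 36)).sub
      ((isMF_D' 3).intCast_mul 756)
  have hV : IsMF 3 24 (Dz ^ 2 + ((270 : ℤ) : PowerSeries ℤ) * (Dz * Vp 3 Dz) +
      ((729 : ℤ) : PowerSeries ℤ) * Vp 3 Dz ^ 2) :=
    ((((isMF_D 3).pow 2).congr_weight (by norm_num)).add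
      ((((isMF_D 3).mul (isMF_D' 3)).congr_weight (by norm_num)).intCast_mul 270)).add
      ((((isMF_D' 3).pow 2).congr_weight (by norm_num)).intCast_mul 729)
  have h1 := ((((isMF_D 3).mul (isMF_D' 3)).mul (hU.pow 2)).congr_weight
    (l := 48) (by norm_num)).sub ((hV.pow 2).congr_weight (by norm_num))
  refine h1.eq_zero_of_apx (n := 17) (by rw [psi_three]; decide) ?_
  have a3 := apx_D.vp 3 (by norm_num)
  exact (((apx_D.mul a3).mul (((((apx_E4.vp 3 (by norm_num)).pow 3).sub (apx_D.smul 36)).sub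
    (a3.smul 756)).pow 2)).sub
    ((((apx_D.pow 2).add ((apx_D.mul a3).smul 270)).add
      ((a3.pow 2).smul 729)).pow 2)).congr (by decide +kernel)

end Fermat.Agent.ESlib
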