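import Fermat.Agent.S16.L1
import Fermat.Agent.S16.UpVp
import Fermat.Agent.S20.Separating
import Fermat.Agent.S20.CombIndex
import Fermat.Prelude.Thm_ModularForm_sturm_bound_Gamma0

/-!
# T-ES, Part H: integral `q`-expansions of modular forms on `Γ₀(N)`, Sturm bound
-/

set_option autoImplicit false

open UpperHalfPlane ModularForm MatrixGroups CongruenceSubgroup
open scoped Manifold

namespace Fermat.Agent.ESlib

open Fermat.Agent.S16lib Fermat.Agent.S20lib

theorem one_mem_strictPeriods_Gamma0 (N : ℕ) :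
    (1 : ℝ) ∈ ((Gamma0 N : Subgroup SL(2, ℤ)) : Subgroup (GL (Fin 2) ℝ)).strictPeriods := by
  rw [strictPeriods_Gamma0]
  exact AddSubgroup.mem_zmultiples 1

/-- `F ∈ ℤ[[q]]` is the `q`-expansion of a modular form of weight `k` on `Γ₀(N)`. -/
def IsMF (N : ℕ) (k : ℤ) (F : PowerSeries ℤ) : Prop :=
  ∃ f : ModularForm ((Gamma0 N : Subgroup SL(2, ℤ)) : Subgroup (GL (Fin 2) ℝ)) k,
    qExpansion 1 f = toC F

variable {N : ℕ} {k l : ℤ} {F G : PowerSeries ℤ}

theorem IsMF.congr_weight (hkl : k = l) (h : IsMF N k F) : IsMF N l F := hkl ▸ h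

theorem IsMF.add (h : IsMF N k F) (h' : IsMF N k G) : IsMF N k (F + G) := by
  obtain ⟨f, hf⟩ := h
  obtain ⟨g, hg⟩ := h'
  refine ⟨f + g, ?_⟩
  rw [show toC (F + G) = toC F + toC G from map_add _ _ _, ← hf, ← hg]
  exact ModularForm.qExpansion_add one_pos (one_mem_strictPeriods_Gamma0 N) f g

theorem IsMF.intCast_mul (c : ℤ) (h : IsMF N k F) : IsMF N k ((c : PowerSeries ℤ) * F) := by
  obtain ⟨f, hf⟩ := h
  refine ⟨(c : ℂ) • f, ?_⟩
  rw [toC_intCast_mul, ← hf, ← PowerSeries.smul_eq_C_mul]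
  exact ModularForm.qExpansion_smul one_pos (one_mem_strictPeriods_Gamma0 N) (c : ℂ) f

theorem IsMF.neg (h : IsMF N k F) : IsMF N k (-F) := by
  simpa using h.intCast_mul (-1)

theorem IsMF.sub (h : IsMF N k F) (h' : IsMF N k G) : IsMF N k (F - G) := by
  rw [sub_eq_add_neg]
  exact h.add h'.neg

theorem IsMF.mul (h : IsMF N k F) (h' : IsMF N l G) : IsMF N (k + l) (F * G) := by
  obtain ⟨f, hf⟩ := h
  obtain ⟨g, hg⟩ := h'
  refine ⟨f.mul g, ?_⟩
  rw [show toC (F * G) = toC F * toC G from map_mul _ _ _, ← hf, ← hg]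
  exact ModularForm.qExpansion_mul one_pos (one_mem_strictPeriods_Gamma0 N) f g

theorem isMF_one : IsMF N 0 1 := ⟨1, by rw [toC, map_one]; exact ModularForm.qExpansion_one⟩

theorem IsMF.pow (h : IsMF N k F) (n : ℕ) : IsMF N (n * k) (F ^ n) := by
  induction n with
  | zero => simpa using isMF_one
  | succ n ih =>
    rw [pow_succ]
    exact (ih.mul h).congr_weight (by push_cast; ring)

/-- Sturm bound -/
theorem IsMF.eq_zero [NeZero N] (h : IsMF N k F)
    (hc : ∀ n : ℕ, n ≤ (k * (ModularCurve.dedekindPsi N : ℤ)).toNat / 12 → PowerSeries.coeff n F = 0) :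
    F = 0 := by
  obtain ⟨f, hf⟩ := h
  have h0 : f = 0 := by
    refine ModularForm.sturm_bound_Gamma0 N f fun n hn => ?_
    rw [index_Gamma0 N (NeZero.ne N)] at hn
    rw [hf, toC, PowerSeries.coeff_map, hc n hn]
    simp
  apply toC_injective
  rw [← hf, h0]
  simp [qExpansion_zero]

theorem Gamma0_le_of_dvd {d : ℕ} (hd : d ∣ N) : Gamma0 N ≤ Gamma0 d := by
  obtain ⟨e, rfl⟩ := hd
  exact Gamma0_mul_le d e

theorem diagN_eq (d : ℕ) [NeZero d] : diagN d = heckeDiagMatrix d := by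
  apply Units.ext
  rw [val_diagN, val_heckeDiagMatrix (NeZero.ne d)]

theorem slash_diagN (d : ℕ) [NeZero d] (g : ℍ → ℂ) (τ : ℍ) :
    (g ∣[k] diagN d) τ = (d : ℂ) ^ (k - 1) * g (heckeDiagMatrix d • τ) := by
  have hd : (0 : ℝ) < d := Nat.cast_pos.2 (Nat.pos_of_ne_zero (NeZero.ne d))
  have hdet : (diagN d).det.val = d := by
    simp [Matrix.GeneralLinearGroup.val_det_apply, Matrix.det_fin_two_of]
  rw [ModularForm.slash_apply, hdet, abs_of_pos hd, ← diagN_eq]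
  have h1 : denom (diagN d) τ = 1 := by simp [denom]
  have h2 : ∀ x : ℂ, σ (diagN d) x = x := by
    intro x
    rw [σ, if_pos (by rw [hdet]; exact hd)]
    rfl
  rw [h1, h2]
  simp [mul_comm]

/-- `g(dz)` is a modular form on `Γ₀(N)` for `d ∣ N` -/
theorem IsL1.isMF [NeZero N] (h : IsL1 k G) {d : ℕ} (hd : d ∣ N) : IsMF N k (Vp d G) := by
  obtain ⟨g, hg⟩ := isL1_iff.1 h
  have hd0 : d ≠ 0 := fun h0 => NeZero.ne N (by simpa [h0] using hd)
  have : NeZero d := ⟨hd0⟩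
  have hle : ((Gamma0 N : Subgroup SL(2, ℤ)) : Subgroup (GL (Fin 2) ℝ)) ≤
      ((Gamma0 d : Subgroup SL(2, ℤ)) : Subgroup (GL (Fin 2) ℝ)) :=
    Subgroup.map_mono (Gamma0_le_of_dvd hd)
  let f0 : ModularForm ((Gamma0 N : Subgroup SL(2, ℤ)) : Subgroup (GL (Fin 2) ℝ)) k :=
    { toFun := (g : ℍ → ℂ) ∣[k] diagN d
      slash_action_eq' := fun γ hγ =>
        (ModularForm.translate g (diagN d)).slash_action_eq' γ (Gamma0_le_conj d (hle hγ))
      holo' := (ModularForm.translate g (diagN d)).holo'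
      bdd_at_cusps' := fun hc =>
        (ModularForm.translate g (diagN d)).bdd_at_cusps' (hc.mono (hle.trans (Gamma0_le_conj d))) }
  refine ⟨((d : ℂ) ^ (k - 1))⁻¹ • f0, ?_⟩
  have hq : HasQ (g : ℍ → ℂ) (toC G) := by
    rw [← hg]
    intro τ
    simpa only [smul_eq_mul] using
      ModularForm.hasSum_qExpansion g one_pos one_mem_strictPeriods_SL τ
  have h1 := (hq.vp hd0).eq_qExpansion
  rw [toC_Vp, h1]
  congr 1
  funext τ
  have hdc : ((d : ℂ) ^ (k - 1)) ≠ 0 := zpow_ne_zero _ (Nat.cast_ne_zero.2 hd0)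
  show ((d : ℂ) ^ (k - 1))⁻¹ * ((g : ℍ → ℂ) ∣[k] diagN d) τ = _
  rw [slash_diagN, ← mul_assoc, inv_mul_cancel₀ hdc, one_mul]

end Fermat.Agent.ESlib
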