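import Fermat.Agent.ES.H.Series

/-!
# T-ES, Part H: the relations between `j(q^d)` and the Hauptmoduln `t₂`, `t₃` (interface)
-/

set_option autoImplicit false

namespace Fermat.Agent.ESlib

open ModularCurve Fermat.Agent.S16lib

variable (K : Type*) [CommRing K]

/-- `zL` as a ring homomorphism -/
noncomputable def zLhom : PowerSeries ℤ →+* LaurentSeries K :=
  (HahnSeries.ofPowerSeries ℤ K).comp (PowerSeries.map (Int.castRingHom K))

theorem zL_eq (A : PowerSeries ℤ) : zL K A = zLhom K A := rfl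

theorem zLhom_coeff_natCast (A : PowerSeries ℤ) (n : ℕ) :
    (zLhom K A).coeff (n : ℤ) = ((PowerSeries.coeff n A : ℤ) : K) := by
  show (HahnSeries.ofPowerSeries ℤ K (A.map (Int.castRingHom K))).coeff (n : ℤ) = _
  rw [HahnSeries.ofPowerSeries_apply_coeff, PowerSeries.coeff_map]
  rfl

theorem zLhom_coeff_of_neg (A : PowerSeries ℤ) {k : ℤ} (hk : k < 0) : (zLhom K A).coeff k = 0 :=
  ofPowerSeries_coeff_of_neg _ hk

theorem zLhom_X : zLhom K PowerSeries.X = HahnSeries.single (1 : ℤ) 1 := by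
  show HahnSeries.ofPowerSeries ℤ K ((PowerSeries.X : PowerSeries ℤ).map (Int.castRingHom K)) = _
  rw [PowerSeries.map_X, HahnSeries.ofPowerSeries_X]

theorem single_mul_zLhom_X : HahnSeries.single (-1 : ℤ) (1 : K) * zLhom K PowerSeries.X = 1 := by
  rw [zLhom_X, HahnSeries.single_mul_single]
  simp

theorem qExpand_zLhom (N : ℕ) [NeZero N] (A : PowerSeries ℤ) :
    qExpand K N (zLhom K A) = zLhom K (Vp N A) := by
  have hN : 0 < N := Nat.pos_of_ne_zero (NeZero.ne N)
  ext k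
  rcases lt_or_ge k 0 with hk | hk
  · rw [zLhom_coeff_of_neg K _ hk]
    by_cases hd : (N : ℤ) ∣ k
    · obtain ⟨m, rfl⟩ := hd
      rw [qExpand_coeff_mul]
      refine zLhom_coeff_of_neg K _ ?_
      by_contra hm
      exact absurd hk (not_lt.2 (mul_nonneg (by positivity) (not_lt.1 hm)))
    · exact qExpand_coeff_of_not_dvd N _ hd
  · obtain ⟨n, rfl⟩ := Int.eq_ofNat_of_zero_le hk
    rw [zLhom_coeff_natCast, Vp, PowerSeries.coeff_mk]
    by_cases hd : N ∣ n
    · obtain ⟨m, rfl⟩ := hd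
      rw [if_pos (Dvd.intro _ rfl), Nat.mul_div_cancel_left _ hN]
      push_cast
      rw [qExpand_coeff_mul, zLhom_coeff_natCast]
    · rw [if_neg hd, qExpand_coeff_of_not_dvd N _ (by exact_mod_cast hd)]
      simp

theorem haupt_eq (N r : ℕ) [NeZero N] :
    haupt K N r = HahnSeries.single (-1 : ℤ) 1 * zLhom K (hauptNum N r) := by
  rw [haupt, zL_eq, zL_eq, qExpand_zLhom, hauptNum, map_mul, Vp_pow (NeZero.ne N), mul_assoc]

theorem jqModC_eq : jqModC K = HahnSeries.single (-1 : ℤ) 1 * zLhom K jNum := rfl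

theorem jqNModC_eq (N : ℕ) [NeZero N] :
    jqNModC K N = HahnSeries.single (-1 : ℤ) 1 ^ N * zLhom K (Vp N jNum) := by
  rw [jqNModC, jqModC_eq, map_mul, qExpand_zLhom, qExpand_single, HahnSeries.single_pow]
  simp

theorem haupt2_rel_one : jqModC K * haupt K 2 24 ^ 2 = (haupt K 2 24 + 256) ^ 3 := by
  have h := congrArg (zLhom K) ser2_one
  simp only [map_mul, map_pow, map_add, map_ofNat] at h
  have hQ := single_mul_zLhom_X K
  rw [jqModC_eq, haupt_eq]
  set Q := HahnSeries.single (-1 : ℤ) (1 : K)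
  calc Q * zLhom K jNum * (Q * zLhom K (hauptNum 2 24)) ^ 2
      = Q ^ 3 * (zLhom K jNum * zLhom K (hauptNum 2 24) ^ 2) := by ring
    _ = Q ^ 3 * (zLhom K (hauptNum 2 24) + 256 * zLhom K PowerSeries.X) ^ 3 := by rw [h]
    _ = (Q * zLhom K (hauptNum 2 24) + 256 * (Q * zLhom K PowerSeries.X)) ^ 3 := by ring
    _ = _ := by rw [hQ, mul_one]

theorem haupt2_rel_two : jqNModC K 2 * haupt K 2 24 = (haupt K 2 24 + 16) ^ 3 := by
  have h := congrArg (zLhom K) ser2_two
  simp only [map_mul, map_pow, map_add, map_ofNat] at h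
  have hQ := single_mul_zLhom_X K
  rw [jqNModC_eq, haupt_eq]
  set Q := HahnSeries.single (-1 : ℤ) (1 : K)
  calc Q ^ 2 * zLhom K (Vp 2 jNum) * (Q * zLhom K (hauptNum 2 24))
      = Q ^ 3 * (zLhom K (Vp 2 jNum) * zLhom K (hauptNum 2 24)) := by ring
    _ = Q ^ 3 * (zLhom K (hauptNum 2 24) + 16 * zLhom K PowerSeries.X) ^ 3 := by rw [h]
    _ = (Q * zLhom K (hauptNum 2 24) + 16 * (Q * zLhom K PowerSeries.X)) ^ 3 := by ring
    _ = _ := by rw [hQ, mul_one]

theorem haupt3_rel_one :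
    jqModC K * haupt K 3 12 ^ 3 = (haupt K 3 12 + 27) * (haupt K 3 12 + 243) ^ 3 := by
  have h := congrArg (zLhom K) ser3_one
  simp only [map_mul, map_pow, map_add, map_ofNat] at h
  have hQ := single_mul_zLhom_X K
  rw [jqModC_eq, haupt_eq]
  set Q := HahnSeries.single (-1 : ℤ) (1 : K)
  calc Q * zLhom K jNum * (Q * zLhom K (hauptNum 3 12)) ^ 3
      = Q ^ 4 * (zLhom K jNum * zLhom K (hauptNum 3 12) ^ 3) := by ring
    _ = Q ^ 4 * ((zLhom K (hauptNum 3 12) + 27 * zLhom K PowerSeries.X) *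
          (zLhom K (hauptNum 3 12) + 243 * zLhom K PowerSeries.X) ^ 3) := by rw [h]
    _ = (Q * zLhom K (hauptNum 3 12) + 27 * (Q * zLhom K PowerSeries.X)) *
          (Q * zLhom K (hauptNum 3 12) + 243 * (Q * zLhom K PowerSeries.X)) ^ 3 := by ring
    _ = _ := by rw [hQ, mul_one, mul_one]

theorem haupt3_rel_three :
    jqNModC K 3 * haupt K 3 12 = (haupt K 3 12 + 27) * (haupt K 3 12 + 3) ^ 3 := by
  have h := congrArg (zLhom K) ser3_three
  simp only [map_mul, map_pow, map_add, map_ofNat] at h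
  have hQ := single_mul_zLhom_X K
  rw [jqNModC_eq, haupt_eq]
  set Q := HahnSeries.single (-1 : ℤ) (1 : K)
  calc Q ^ 3 * zLhom K (Vp 3 jNum) * (Q * zLhom K (hauptNum 3 12))
      = Q ^ 4 * (zLhom K (Vp 3 jNum) * zLhom K (hauptNum 3 12)) := by ring
    _ = Q ^ 4 * ((zLhom K (hauptNum 3 12) + 27 * zLhom K PowerSeries.X) *
          (zLhom K (hauptNum 3 12) + 3 * zLhom K PowerSeries.X) ^ 3) := by rw [h]
    _ = (Q * zLhom K (hauptNum 3 12) + 27 * (Q * zLhom K PowerSeries.X)) *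
          (Q * zLhom K (hauptNum 3 12) + 3 * (Q * zLhom K PowerSeries.X)) ^ 3 := by ring
    _ = _ := by rw [hQ, mul_one, mul_one]

end Fermat.Agent.ESlib
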