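import Fermat.Agent.ES.H.Ident
import Fermat.Agent.ES.H.Defs

/-!
# T-ES, Part H: the relations as identities in `ℤ[[X]]`
-/

set_option autoImplicit false

namespace Fermat.Agent.ESlib

open PowerSeries Fermat.Agent.S16lib ModularCurve

theorem Dz_eq : Dz = X * etaProd ^ 24 := rfl

theorem Vp_Dz {r : ℕ} (hr : r ≠ 0) : Vp r Dz = X ^ r * Vp r etaProd ^ 24 := by
  rw [Dz_eq, Vp_mul hr, Vp_X hr, Vp_pow hr]

theorem Vp_eta_mul_inv {r : ℕ} (hr : r ≠ 0) : Vp r etaProd * Vp r etaProdInv = 1 := by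
  rw [← Vp_mul hr, etaProd_mul_inv, Vp_one hr]

theorem X_pow_cancel {n : ℕ} {A B : PowerSeries ℤ} (h : X ^ n * A = X ^ n * B) : A = B :=
  mul_left_cancel₀ (pow_ne_zero n X_ne_zero) h

theorem prod2_one :
    E4z ^ 3 * (etaProd ^ 24 * Vp 2 etaProd ^ 24) =
      (etaProd ^ 24 + 256 * X * Vp 2 etaProd ^ 24) ^ 3 := by
  have h := ident2_one
  rw [Vp_Dz two_ne_zero, Dz_eq] at h
  apply X_pow_cancel (n := 3)
  linear_combination h

theorem prod2_two :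
    Vp 2 E4z ^ 3 * (etaProd ^ 24 * Vp 2 etaProd ^ 24) =
      (etaProd ^ 24 + 16 * X * Vp 2 etaProd ^ 24) ^ 3 := by
  have h := ident2_two
  rw [Vp_Dz two_ne_zero, Dz_eq] at h
  apply X_pow_cancel (n := 3)
  linear_combination h

theorem constantCoeff_Vp (r : ℕ) (A : PowerSeries ℤ) :
    constantCoeff (Vp r A) = constantCoeff A := by
  rw [← coeff_zero_eq_constantCoeff_apply, ← coeff_zero_eq_constantCoeff_apply, Vp, coeff_mk]
  simp

/-- from `(X² W)² = V²` and the leading coefficients to `X² W = V` -/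
theorem eq_of_sq_eq {W V : PowerSeries ℤ} (h : (X ^ 2 * W) ^ 2 = V ^ 2)
    (hW : constantCoeff W = 1) (hV : coeff 2 V = 1) : X ^ 2 * W = V := by
  rcases sq_eq_sq_iff_eq_or_eq_neg.1 h with h1 | h1
  · exact h1
  · exfalso
    have h2 := congrArg (coeff 2) h1
    rw [coeff_X_pow_mul', if_pos le_rfl, Nat.sub_self, coeff_zero_eq_constantCoeff_apply, hW,
      map_neg, hV] at h2
    norm_num at h2

theorem sq_X_eta : (X ^ 2 * (etaProd ^ 12 * Vp 3 etaProd ^ 12)) ^ 2 = Dz * Vp 3 Dz := by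
  rw [Vp_Dz three_ne_zero, Dz_eq]
  ring

theorem prod3_one :
    E4z ^ 3 * (etaProd ^ 12 * Vp 3 etaProd ^ 12) =
      (etaProd ^ 12 + 27 * X * Vp 3 etaProd ^ 12) *
        (etaProd ^ 12 + 243 * X * Vp 3 etaProd ^ 12) ^ 3 := by
  have h := ident3_one_sq
  have h1 := eq_of_sq_eq
    (W := etaProd ^ 12 * Vp 3 etaProd ^ 12 * (E4z ^ 3 - 756 * Dz - 19131876 * Vp 3 Dz))
    (V := Dz ^ 2 + 196830 * (Dz * Vp 3 Dz) + 387420489 * Vp 3 Dz ^ 2) ?_ ?_ ?_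
  · rw [Vp_Dz three_ne_zero, Dz_eq] at h1
    apply X_pow_cancel (n := 2)
    linear_combination h1
  · rw [← h, ← sq_X_eta, mul_pow, mul_pow, mul_pow, mul_pow]
    ring
  · have hE : constantCoeff E4z = 1 := by
      rw [← coeff_zero_eq_constantCoeff_apply, coeff_zero_E4z]
    have hD : constantCoeff Dz = 0 := by
      rw [← coeff_zero_eq_constantCoeff_apply, coeff_zero_Dz]
    simp only [map_mul, map_pow, map_sub, constantCoeff_Vp, constantCoeff_etaProd, hE, hD]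
    simp
  · have a3 := apx_D.vp 3 (by norm_num)
    have := (((apx_D.pow 2).add ((apx_D.mul a3).smul 196830)).add
      ((a3.pow 2).smul 387420489)) 2 (by norm_num)
    rw [show (196830 : PowerSeries ℤ) = ((196830 : ℤ) : PowerSeries ℤ) by norm_num,
      show (387420489 : PowerSeries ℤ) = ((387420489 : ℤ) : PowerSeries ℤ) by norm_num, this]
    decide +kernel

theorem prod3_three :
    Vp 3 E4z ^ 3 * (etaProd ^ 12 * Vp 3 etaProd ^ 12) =
      (etaProd ^ 12 + 27 * X * Vp 3 etaProd ^ 12) *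
        (etaProd ^ 12 + 3 * X * Vp 3 etaProd ^ 12) ^ 3 := by
  have h := ident3_three_sq
  have h1 := eq_of_sq_eq
    (W := etaProd ^ 12 * Vp 3 etaProd ^ 12 * (Vp 3 E4z ^ 3 - 36 * Dz - 756 * Vp 3 Dz))
    (V := Dz ^ 2 + 270 * (Dz * Vp 3 Dz) + 729 * Vp 3 Dz ^ 2) ?_ ?_ ?_
  · rw [Vp_Dz three_ne_zero, Dz_eq] at h1
    apply X_pow_cancel (n := 2)
    linear_combination h1
  · rw [← h, ← sq_X_eta, mul_pow, mul_pow, mul_pow, mul_pow]
    ring
  · have hE : constantCoeff E4z = 1 := by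
      rw [← coeff_zero_eq_constantCoeff_apply, coeff_zero_E4z]
    have hD : constantCoeff Dz = 0 := by
      rw [← coeff_zero_eq_constantCoeff_apply, coeff_zero_Dz]
    simp only [map_mul, map_pow, map_sub, constantCoeff_Vp, constantCoeff_etaProd, hE, hD]
    simp
  · have a3 := apx_D.vp 3 (by norm_num)
    have := (((apx_D.pow 2).add ((apx_D.mul a3).smul 270)).add
      ((a3.pow 2).smul 729)) 2 (by norm_num)
    rw [show (270 : PowerSeries ℤ) = ((270 : ℤ) : PowerSeries ℤ) by norm_num,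
      show (729 : PowerSeries ℤ) = ((729 : ℤ) : PowerSeries ℤ) by norm_num, this]
    decide +kernel

theorem dedekindEtaUnitInv_eq : dedekindEtaUnitInv = etaProdInv ^ 24 := by
  have h1 : etaProd ^ 24 * etaProdInv ^ 24 = 1 := by rw [← mul_pow, etaProd_mul_inv, one_pow]
  have h2 : etaProd ^ 24 * dedekindEtaUnitInv = 1 := dedekindEtaUnit_mul_inv
  calc dedekindEtaUnitInv = dedekindEtaUnitInv * (etaProd ^ 24 * etaProdInv ^ 24) := by
        rw [h1, mul_one]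
    _ = (etaProd ^ 24 * dedekindEtaUnitInv) * etaProdInv ^ 24 := by ring
    _ = etaProdInv ^ 24 := by rw [h2, one_mul]

theorem jNum_eq : jNum = E4z ^ 3 * etaProdInv ^ 24 := by
  rw [jNum, dedekindEtaUnitInv_eq, E4z_eq]

theorem Vp_jNum {r : ℕ} (hr : r ≠ 0) : Vp r jNum = Vp r E4z ^ 3 * Vp r etaProdInv ^ 24 := by
  rw [jNum_eq, Vp_mul hr, Vp_pow hr, Vp_pow hr]

/-- `q · t_{N,r}` -/
noncomputable def hauptNum (N r : ℕ) : PowerSeries ℤ := etaProd ^ r * Vp N etaProdInv ^ r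

theorem ser2_one : jNum * hauptNum 2 24 ^ 2 = (hauptNum 2 24 + 256 * X) ^ 3 := by
  have h1 : (etaProd * etaProdInv) ^ 24 = 1 := by rw [etaProd_mul_inv, one_pow]
  have h2 : (Vp 2 etaProd * Vp 2 etaProdInv) ^ 24 = 1 := by
    rw [Vp_eta_mul_inv two_ne_zero, one_pow]
  rw [jNum_eq, hauptNum]
  calc E4z ^ 3 * etaProdInv ^ 24 * (etaProd ^ 24 * Vp 2 etaProdInv ^ 24) ^ 2
      = E4z ^ 3 * etaProd ^ 24 * Vp 2 etaProdInv ^ 48 * (etaProd * etaProdInv) ^ 24 := by ring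
    _ = E4z ^ 3 * etaProd ^ 24 * Vp 2 etaProdInv ^ 48 *
          (Vp 2 etaProd * Vp 2 etaProdInv) ^ 24 := by rw [h1, h2]
    _ = Vp 2 etaProdInv ^ 72 * (E4z ^ 3 * (etaProd ^ 24 * Vp 2 etaProd ^ 24)) := by ring
    _ = Vp 2 etaProdInv ^ 72 * (etaProd ^ 24 + 256 * X * Vp 2 etaProd ^ 24) ^ 3 := by
        rw [prod2_one]
    _ = (etaProd ^ 24 * Vp 2 etaProdInv ^ 24 +
          256 * X * (Vp 2 etaProd * Vp 2 etaProdInv) ^ 24) ^ 3 := by ring
    _ = _ := by rw [h2, mul_one]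

theorem ser2_two : Vp 2 jNum * hauptNum 2 24 = (hauptNum 2 24 + 16 * X) ^ 3 := by
  have h2 : (Vp 2 etaProd * Vp 2 etaProdInv) ^ 24 = 1 := by
    rw [Vp_eta_mul_inv two_ne_zero, one_pow]
  rw [Vp_jNum two_ne_zero, hauptNum]
  calc Vp 2 E4z ^ 3 * Vp 2 etaProdInv ^ 24 * (etaProd ^ 24 * Vp 2 etaProdInv ^ 24)
      = Vp 2 E4z ^ 3 * etaProd ^ 24 * Vp 2 etaProdInv ^ 48 * 1 := by ring
    _ = Vp 2 E4z ^ 3 * etaProd ^ 24 * Vp 2 etaProdInv ^ 48 *
          (Vp 2 etaProd * Vp 2 etaProdInv) ^ 24 := by rw [h2]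
    _ = Vp 2 etaProdInv ^ 72 * (Vp 2 E4z ^ 3 * (etaProd ^ 24 * Vp 2 etaProd ^ 24)) := by ring
    _ = Vp 2 etaProdInv ^ 72 * (etaProd ^ 24 + 16 * X * Vp 2 etaProd ^ 24) ^ 3 := by
        rw [prod2_two]
    _ = (etaProd ^ 24 * Vp 2 etaProdInv ^ 24 +
          16 * X * (Vp 2 etaProd * Vp 2 etaProdInv) ^ 24) ^ 3 := by ring
    _ = _ := by rw [h2, mul_one]

theorem ser3_one :
    jNum * hauptNum 3 12 ^ 3 = (hauptNum 3 12 + 27 * X) * (hauptNum 3 12 + 243 * X) ^ 3 := by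
  have h1 : (etaProd * etaProdInv) ^ 24 = 1 := by rw [etaProd_mul_inv, one_pow]
  have h2 : (Vp 3 etaProd * Vp 3 etaProdInv) ^ 12 = 1 := by
    rw [Vp_eta_mul_inv three_ne_zero, one_pow]
  rw [jNum_eq, hauptNum]
  calc E4z ^ 3 * etaProdInv ^ 24 * (etaProd ^ 12 * Vp 3 etaProdInv ^ 12) ^ 3
      = E4z ^ 3 * etaProd ^ 12 * Vp 3 etaProdInv ^ 36 * (etaProd * etaProdInv) ^ 24 := by ring
    _ = E4z ^ 3 * etaProd ^ 12 * Vp 3 etaProdInv ^ 36 *
          (Vp 3 etaProd * Vp 3 etaProdInv) ^ 12 := by rw [h1, h2]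
    _ = Vp 3 etaProdInv ^ 48 * (E4z ^ 3 * (etaProd ^ 12 * Vp 3 etaProd ^ 12)) := by ring
    _ = Vp 3 etaProdInv ^ 48 * ((etaProd ^ 12 + 27 * X * Vp 3 etaProd ^ 12) *
          (etaProd ^ 12 + 243 * X * Vp 3 etaProd ^ 12) ^ 3) := by rw [prod3_one]
    _ = (etaProd ^ 12 * Vp 3 etaProdInv ^ 12 +
          27 * X * (Vp 3 etaProd * Vp 3 etaProdInv) ^ 12) *
        (etaProd ^ 12 * Vp 3 etaProdInv ^ 12 +
          243 * X * (Vp 3 etaProd * Vp 3 etaProdInv) ^ 12) ^ 3 := by ring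
    _ = _ := by rw [h2, mul_one, mul_one]

theorem ser3_three :
    Vp 3 jNum * hauptNum 3 12 = (hauptNum 3 12 + 27 * X) * (hauptNum 3 12 + 3 * X) ^ 3 := by
  have h2 : (Vp 3 etaProd * Vp 3 etaProdInv) ^ 12 = 1 := by
    rw [Vp_eta_mul_inv three_ne_zero, one_pow]
  rw [Vp_jNum three_ne_zero, hauptNum]
  calc Vp 3 E4z ^ 3 * Vp 3 etaProdInv ^ 24 * (etaProd ^ 12 * Vp 3 etaProdInv ^ 12)
      = Vp 3 E4z ^ 3 * etaProd ^ 12 * Vp 3 etaProdInv ^ 36 * 1 := by ring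
    _ = Vp 3 E4z ^ 3 * etaProd ^ 12 * Vp 3 etaProdInv ^ 36 *
          (Vp 3 etaProd * Vp 3 etaProdInv) ^ 12 := by rw [h2]
    _ = Vp 3 etaProdInv ^ 48 * (Vp 3 E4z ^ 3 * (etaProd ^ 12 * Vp 3 etaProd ^ 12)) := by ring
    _ = Vp 3 etaProdInv ^ 48 * ((etaProd ^ 12 + 27 * X * Vp 3 etaProd ^ 12) *
          (etaProd ^ 12 + 3 * X * Vp 3 etaProd ^ 12) ^ 3) := by rw [prod3_three]
    _ = (etaProd ^ 12 * Vp 3 etaProdInv ^ 12 +
          27 * X * (Vp 3 etaProd * Vp 3 etaProdInv) ^ 12) *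
        (etaProd ^ 12 * Vp 3 etaProdInv ^ 12 +
          3 * X * (Vp 3 etaProd * Vp 3 etaProdInv) ^ 12) ^ 3 := by ring
    _ = _ := by rw [h2, mul_one, mul_one]

end Fermat.Agent.ESlib
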